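import Fermat.Agent.MR.Lift.L4.Defs

/-!
# L4' leaf C2: `q · D j → -1` at `i∞`

Proof.  `Hfun τ * q = - E₄² E₆ q / Δ`, `Δ τ = q * eulerFn q ^ 24` (see the proof of `CuspRing.hasExp_kleinJ`), so
`Hfun τ * q = - E₄² E₆ / eulerFn q ^ 24`; `JLocal.tendsto_E₄`, `JLocal.tendsto_E₆`; `eulerFn` is continuous at `0`
(`differentiableOn_eulerFn` / `analyticAt_eulerFn`) with `eulerFn 0 = 1`, and `wpar 1 τ → 0` (`qParam_tendsto_atImInfty one_pos`).
-/

set_option autoImplicit false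

noncomputable section

namespace Fermat.Agent.MR.Lift.L4

open UpperHalfPlane Filter Topology
open Fermat.Agent.S24 Fermat.Agent.S24.PointExp Fermat.Agent.S24.CuspRing Fermat.Agent.S24.JLocal
open scoped Manifold MatrixGroups

/-- (C2) `q · D j → -1`. -/
theorem tendsto_Hfun_mul : Tendsto (fun τ : ℍ => Hfun τ * wpar 1 τ) atImInfty (𝓝 (-1)) := by
  have hP := ModularForm.tendsto_atImInfty_tprod_one_sub_eta_q_pow
  have h1 : Tendsto (fun τ : ℍ => -(ModularForm.E₄ τ ^ 2 * ModularForm.E₆ τ) /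
      ∏' n : ℕ, (1 - ModularForm.eta_q n τ) ^ 24) atImInfty (𝓝 (-(1 ^ 2 * 1) / 1)) :=
    (((JLocal.tendsto_E₄.pow 2).mul JLocal.tendsto_E₆).neg).div hP one_ne_zero
  have h2 : (-(1 ^ 2 * 1) / 1 : ℂ) = -1 := by norm_num
  rw [h2] at h1
  refine h1.congr fun τ => ?_
  have hw : wpar 1 τ ≠ 0 := wpar_ne_zero 1 τ
  have hΔ : ModularForm.discriminant τ =
      wpar 1 τ * ∏' n : ℕ, (1 - ModularForm.eta_q n τ) ^ 24 := by
    rw [ModularForm.discriminant_eq_q_prod]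
    simp [wpar]
  have hP0 : ∏' n : ℕ, (1 - ModularForm.eta_q n τ) ^ 24 ≠ 0 := by
    intro h
    have h3 := ModularForm.discriminant_ne_zero τ
    rw [hΔ, h, mul_zero] at h3
    exact h3 rfl
  rw [Hfun, hΔ]
  field_simp

end Fermat.Agent.MR.Lift.L4
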