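import Fermat.Agent.MR.Lift.L4.Defs

/-!
# L4' leaf C3: the inequality of orders at the cusps

Proof.  `φ := cuspEmb (FN N) (real N) N (translate_mem_Rcusp N) g : FN N →+* LaurentSeries ℂ`
(`GAL/Tors/Dict/AbsEmb.lean`); `cuspEmb_algebraMap` computes `φ a`, `φ s` (they are the two `Ecusp`'s of the statement) and
`φ (jF N) = Ecusp N ⟨kleinJ, _⟩` has order `-N` (`order_Ecusp_kleinJ`; see the field `order` of `Dict.cuspFamily`).
`exists_place_of_hom φ (jF N) (ordOf φ (jF N) ≠ 0)` gives a place `v` and `M > 0` with `ordOf φ x = M * v.ord x` for `x ≠ 0`.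
So `v.ord (jF N) < 0`, `hinf v` gives `0 < v.ord (f * jF N)`, so `0 < ordOf φ (f * jF N) = ordOf φ f - N`, and
`ordOf φ f + ordOf φ s = ordOf φ a` (`ordOf_mul`).
-/

set_option autoImplicit false

noncomputable section

namespace Fermat.Agent.MR.Lift.L4

open UpperHalfPlane AlgebraicCurve ModularCurve CongruenceSubgroup Filter Topology
open Fermat.Agent.S24 Fermat.Agent.S24.PointExp Fermat.Agent.S24.FNAdjoin Fermat.Agent.S24.EmbedFN
  Fermat.Agent.S24.JLocal Fermat.Agent.S24.CuspRing Fermat.Agent.GAL.Tors.Dict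
open scoped Manifold MatrixGroups

/-- (C3) the inequality of orders at the cusp `g⁻¹ ∞`. -/
theorem order_lt_cusp (N : ℕ) [NeZero N] (f : FN N) (a s : A N) (hs : s ≠ 0) (ha : a ≠ 0)
    (hf : f * (s : FN N) = (a : FN N))
    (hinf : ∀ P : Place Kbar (FN N), P.ord (jF N) < 0 → 0 < P.ord (f * jF N)) (g : SL(2, ℤ)) :
    (Ecusp N ⟨Embed.translate (PsiA N) g s, translate_mem_Rcusp N g s⟩).order + N <
      (Ecusp N ⟨Embed.translate (PsiA N) g a, translate_mem_Rcusp N g a⟩).order := by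
  set φ := cuspEmb (FN N) (real N) N (translate_mem_Rcusp N) g with hφ
  have hφa : ∀ b : A N, φ (b : FN N) =
      Ecusp N ⟨Embed.translate (PsiA N) g b, translate_mem_Rcusp N g b⟩ :=
    fun b => cuspEmb_algebraMap (FN N) (real N) N (translate_mem_Rcusp N) g b
  have hN0 : (0 : ℤ) < N := by exact_mod_cast NeZero.pos N
  have hordj' : ordOf φ (jF N)⁻¹ = N := by
    have h1 := (cuspFamily (FN N) (real N) N (translate_mem_Rcusp N)).order
      ((g : SL(2, ℤ)) : SL(2, ℤ) ⧸ Gamma0 N)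
    have h3 : (cuspFamily (FN N) (real N) N (translate_mem_Rcusp N)).σ
        ((g : SL(2, ℤ)) : SL(2, ℤ) ⧸ Gamma0 N) = φ :=
      sigma_mk_eq_cuspEmb (FN N) (real N) N (translate_mem_Rcusp N) g
    rw [h3] at h1
    exact h1
  have hj0 : jF N ≠ 0 := by
    intro h0
    rw [h0, inv_zero, ordOf, map_zero, HahnSeries.order_zero] at hordj'
    omega
  have hordj : ordOf φ (jF N) = -(N : ℤ) := by
    rw [ordOf_inv φ hj0] at hordj'
    omega
  obtain ⟨v, M, hM, -, hvM⟩ := exists_place_of_hom (k := Kbar) φ (jF N) (by rw [hordj]; omega)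
  have hvj : v.ord (jF N) < 0 := by
    have h1 := hvM _ hj0
    rw [hordj] at h1
    by_contra hcon
    have h2 : 0 ≤ M * v.ord (jF N) := mul_nonneg hM.le (not_lt.1 hcon)
    omega
  have h1 := hinf v hvj
  have hs' : (s : FN N) ≠ 0 := fun h0 => hs (Subtype.ext h0)
  have ha' : (a : FN N) ≠ 0 := fun h0 => ha (Subtype.ext h0)
  have hf0 : f ≠ 0 := by
    rintro rfl
    rw [zero_mul] at hf
    exact ha' hf.symm
  have h2 : 0 < ordOf φ (f * jF N) := by
    rw [hvM _ (mul_ne_zero hf0 hj0)]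
    exact mul_pos hM h1
  rw [ordOf_mul φ hf0 hj0, hordj] at h2
  have h3 : ordOf φ f + ordOf φ (s : FN N) = ordOf φ (a : FN N) := by
    rw [← ordOf_mul φ hf0 hs', hf]
  rw [← hφa, ← hφa]
  change ordOf φ (s : FN N) + N < ordOf φ (a : FN N)
  omega

end Fermat.Agent.MR.Lift.L4
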