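import Fermat.Agent.MR.Lift.L4.CuspShape
import Fermat.Agent.MR.Lift.L4.CuspH
import Fermat.Agent.MR.Lift.L4.CuspOrd

/-!
# L4': vanishing at the cusps (assembly of C1, C2, C3)
-/

set_option autoImplicit false

noncomputable section

namespace Fermat.Agent.MR.Lift.L4

open UpperHalfPlane AlgebraicCurve ModularCurve CongruenceSubgroup Filter Topology
open Fermat.Agent.S24 Fermat.Agent.S24.PointExp Fermat.Agent.S24.FNAdjoin Fermat.Agent.S24.EmbedFN
  Fermat.Agent.S24.JLocal Fermat.Agent.S24.CuspRing Fermat.Agent.GAL.Tors.Dict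
open scoped Manifold MatrixGroups

theorem wpar_one_eq_pow (N : ℕ) [NeZero N] (τ : ℍ) : wpar 1 τ = wpar N τ ^ N := by
  have hN : (N : ℂ) ≠ 0 := by exact_mod_cast NeZero.ne N
  unfold wpar Function.Periodic.qParam
  rw [← Complex.exp_nat_mul]
  congr 1
  push_cast
  field_simp

theorem tendsto_wpar (N : ℕ) [NeZero N] : Tendsto (fun τ : ℍ => wpar N τ) atImInfty (𝓝 0) :=
  qParam_tendsto_atImInfty (N_pos N)

/-- the translate of an element of `A N`, as an element of `Rcusp N`. -/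
def trR (N : ℕ) [NeZero N] (g : SL(2, ℤ)) (x : A N) : Rcusp N :=
  ⟨Embed.translate (PsiA N) g x, translate_mem_Rcusp N g x⟩

theorem trR_ne_zero (N : ℕ) [NeZero N] (g : SL(2, ℤ)) {x : A N} (hx : x ≠ 0) : trR N g x ≠ 0 := by
  intro h
  apply hx
  apply Embed.translate_injective (PsiA_injective N) g
  rw [map_zero]
  exact congrArg Subtype.val h

/-- **vanishing at the cusps.** -/
theorem tendsto_zero_cusp (N : ℕ) [NeZero N] (f : FN N) (a s : A N) (hs : s ≠ 0)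
    (hf : f * (s : FN N) = (a : FN N))
    (hinf : ∀ P : Place Kbar (FN N), P.ord (jF N) < 0 → 0 < P.ord (f * jF N)) (γ : SL(2, ℤ))
    (G : ℍ → ℂ) (hG : ∀ τ, G τ * PsiA N s (γ • τ) = PsiA N a (γ • τ) * Hfun τ) :
    Tendsto G atImInfty (𝓝 0) := by
  have hw := tendsto_wpar N
  have htr : ∀ (x : A N) (τ : ℍ), (trR N γ⁻¹ x).1 τ = PsiA N x (γ • τ) := by
    intro x τ
    show Embed.translate (PsiA N) γ⁻¹ x τ = _
    rw [Embed.translate_apply, inv_inv]
  obtain ⟨h1, h1c, h10, h1e⟩ := exists_eq_zpow_mul N (trR N γ⁻¹ s) (trR_ne_zero N γ⁻¹ hs)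
  have h1ne : ∀ᶠ τ in atImInfty, h1 (wpar N τ) ≠ 0 :=
    hw.eventually (h1c.eventually_ne h10)
  by_cases ha : a = 0
  · refine tendsto_const_nhds.congr' ?_
    filter_upwards [h1e, h1ne] with τ e1 e2
    have h := hG τ
    rw [ha, map_zero, Pi.zero_apply, zero_mul, ← htr, e1] at h
    exact ((mul_eq_zero.mp h).resolve_right
      (mul_ne_zero (zpow_ne_zero _ (wpar_ne_zero N τ)) e2)).symm
  obtain ⟨h2, h2c, -, h2e⟩ := exists_eq_zpow_mul N (trR N γ⁻¹ a) (trR_ne_zero N γ⁻¹ ha)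
  have hord := order_lt_cusp N f a s hs ha hf hinf γ⁻¹
  set ms := (Ecusp N (trR N γ⁻¹ s)).order with hms
  set ma := (Ecusp N (trR N γ⁻¹ a)).order with hma
  have hord' : ms + N < ma := hord
  obtain ⟨k, hk⟩ : ∃ k : ℕ, ma = ms + N + (k + 1 : ℕ) := ⟨(ma - ms - N - 1).toNat, by
    push_cast
    omega⟩
  have hlim : Tendsto (fun τ : ℍ => wpar N τ ^ (k + 1) *
      (h2 (wpar N τ) * (Hfun τ * wpar 1 τ) / h1 (wpar N τ))) atImInfty
      (𝓝 (0 ^ (k + 1) * (h2 0 * (-1) / h1 0))) :=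
    (hw.pow (k + 1)).mul ((((h2c.tendsto).comp hw).mul tendsto_Hfun_mul).div
      ((h1c.tendsto).comp hw) h10)
  rw [zero_pow (Nat.succ_ne_zero k), zero_mul] at hlim
  refine hlim.congr' ?_
  filter_upwards [h1e, h1ne, h2e] with τ e1 e2 e3
  have h := hG τ
  rw [← htr, ← htr, e1, e3, hk] at h
  have hw0 := wpar_ne_zero N τ
  rw [wpar_one_eq_pow N, zpow_add₀ hw0, zpow_add₀ hw0, zpow_natCast, zpow_natCast] at *
  have hz := zpow_ne_zero ms hw0
  have hN := pow_ne_zero N hw0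
  field_simp
  have h3 : (wpar N τ ^ ms) * (G τ * h1 (wpar N τ)) =
      (wpar N τ ^ ms) * (wpar N τ ^ N * wpar N τ ^ (k + 1) * h2 (wpar N τ) * Hfun τ) := by
    linear_combination h
  have h4 := mul_left_cancel₀ hz h3
  linear_combination -h4

end Fermat.Agent.MR.Lift.L4
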