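import Fermat.Agent.MR.Lift.L4.OrdH

/-!
# L4' leaf POINT: the order inequality at the points of `ℍ`

Proof.  If `a = 0` the RHS is `⊤` (`hol N 0 = 0`).  Else `f ≠ 0`.  `φ := ptEmb (FN N) (real N) τ 1 : FN N →+* LaurentSeries ℂ`
(`GAL/Tors/Dict/AbsEmb.lean`); `AlgAn_ptEmb_one (real N) τ x : φ (algebraMap _ _ x) = pointE τ ⟨PsiA N x, _⟩`;
`AlgAn_exists_order G hG τ : ∃ n : ℕ, analyticOrderAt (G.1 ∘ ofComplex) τ = n ∧ (pointE τ G).order = n` translates between analytic orders
and orders of Laurent series (`pointE τ` is an injective ring hom, `HahnSeries.order_mul`).  So we must show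
`ordOf φ s ≤ ordOf φ a + (pointE τ Hj).order`, i.e. `0 ≤ ordOf φ f + ord Hj` (`ordOf_mul`).
* if `0 ≤ ordOf φ f`: clear.
* if `ordOf φ f < 0`: `exists_place_of_hom φ f _` gives a place `v`, `M > 0` with `ordOf φ x = M * v.ord x` (`x ≠ 0`).
  `0 ≤ ordOf φ (jF N)` (it is `pointE τ` of a holomorphic function), so `0 ≤ v.ord (jF N)`, and
  `exists_const_of_mem (jF N) (transcendental_jF N) v (jF N) (mem_of_ord_nonneg ..)` (instance `finiteDimensional_jF N`) gives `c` with
  `0 < v.ord (jF N - c)` (`jF N = c` contradicts transcendence).  `hfin v c` : `0 < v.ord (f * (jF N - c))`, so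
  `1 ≤ ordOf φ f + ordOf φ (jF N - c)`.  `φ (jF N - c) = pointE τ (kleinJ - ι c)` has positive order `e`, so `kleinJ τ = ι c`, and
  `e = analyticOrderAt (fun w => kleinJ (ofComplex w) - kleinJ τ) τ ≤ ord Hj + 1` by `order_kleinJ_sub_le`.
-/

set_option autoImplicit false

noncomputable section

namespace Fermat.Agent.MR.Lift.L4

open UpperHalfPlane AlgebraicCurve ModularCurve CongruenceSubgroup
open Fermat.Agent.S24 Fermat.Agent.S24.PointExp Fermat.Agent.S24.FNAdjoin Fermat.Agent.S24.EmbedFN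
  Fermat.Agent.S24.JLocal Fermat.Agent.GAL.Tors.Dict
open scoped Manifold MatrixGroups

/-- `ord_τ s ≤ ord_τ (a · D j)` if `f = a / s` satisfies the finite part of `InLW`. -/
theorem order_le_point (N : ℕ) [NeZero N] (f : FN N) (a s : A N) (hs : s ≠ 0)
    (hf : f * (s : FN N) = (a : FN N))
    (hfin : ∀ (P : Place Kbar (FN N)) (c : Kbar), 0 < P.ord (jF N - algebraMap Kbar (FN N) c) →
      0 < P.ord (f * (jF N - algebraMap Kbar (FN N) c))) (τ : ℍ) :
    analyticOrderAt ((hol N s).1 ∘ ofComplex) (τ : ℂ) ≤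
      analyticOrderAt ((hol N a * Hj).1 ∘ ofComplex) (τ : ℂ) := by
  -- the case where the right hand side is the zero function
  by_cases h0 : hol N a * Hj = 0
  · have : analyticOrderAt ((hol N a * Hj).1 ∘ ofComplex) (τ : ℂ) = ⊤ := by
      rw [analyticOrderAt_eq_top, h0]
      exact Filter.Eventually.of_forall fun _ => rfl
    rw [this]
    exact le_top
  have hAl : hol N a ≠ 0 := left_ne_zero_of_mul h0
  have hH : Hj ≠ 0 := right_ne_zero_of_mul h0
  have ha : a ≠ 0 := by
    rintro rfl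
    apply hAl
    apply Subtype.ext
    exact map_zero (PsiA N)
  have hSg : hol N s ≠ 0 := AlgAn_holo_ne_zero (real N) hs
  have haF : (a : FN N) ≠ 0 := by
    intro h
    exact ha (Subtype.ext h)
  have hsF : (s : FN N) ≠ 0 := by
    intro h
    exact hs (Subtype.ext h)
  have hf0 : f ≠ 0 := by
    rintro rfl
    rw [zero_mul] at hf
    exact haF hf.symm
  set φ : FN N →+* LaurentSeries ℂ := ptEmb (FN N) (real N) τ 1 with hφdef
  have hφ : ∀ x : A N, φ (x : FN N) = EmbedPoint.pointE τ (hol N x) := fun x =>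
    AlgAn_ptEmb_one (F := FN N) (real N) τ x
  obtain ⟨ns, hs1, hs2⟩ := AlgAn_exists_order (hol N s) hSg τ
  obtain ⟨na, -, ha2⟩ := AlgAn_exists_order (hol N a) hAl τ
  obtain ⟨nH, hH1, hH2⟩ := AlgAn_exists_order Hj hH τ
  obtain ⟨naH, haH1, haH2⟩ := AlgAn_exists_order (hol N a * Hj) h0 τ
  have hsum : (naH : ℤ) = na + nH := by
    rw [← haH2, map_mul, HahnSeries.order_mul ((map_ne_zero_iff _ (EmbedPoint.pointE_injective τ)).2 hAl)
      ((map_ne_zero_iff _ (EmbedPoint.pointE_injective τ)).2 hH), ha2, hH2]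
  have hfs : ordOf φ f + ns = na := by
    have h1 := ordOf_mul φ hf0 hsF
    rw [hf] at h1
    have h2 : ordOf φ (a : FN N) = na := by unfold ordOf; rw [hφ, ha2]
    have h3 : ordOf φ (s : FN N) = ns := by unfold ordOf; rw [hφ, hs2]
    rw [h2, h3] at h1
    exact h1.symm
  rw [hs1, haH1]
  suffices hmain : 0 ≤ ordOf φ f + nH by
    have : (ns : ℤ) ≤ naH := by omega
    exact_mod_cast this
  rcases le_or_gt 0 (ordOf φ f) with hnn | hneg
  · omega
  obtain ⟨v, M, hM, -, hv⟩ := exists_place_of_hom (k := Kbar) φ f (ne_of_lt hneg)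
  have htr := transcendental_jF N
  have hnotc : ∀ c : Kbar, jF N ≠ algebraMap Kbar (FN N) c := by
    intro c hc
    apply htr
    rw [hc]
    exact isAlgebraic_algebraMap c
  have hj0 : jF N ≠ 0 := by
    intro h
    exact hnotc 0 (by rw [h, map_zero])
  have hjA0 : (⟨jF N, jF_mem_A N⟩ : A N) ≠ 0 := by
    intro h
    exact hj0 (congrArg Subtype.val h)
  have hjord : 0 ≤ ordOf φ (jF N) := by
    obtain ⟨nj, -, hnj⟩ := AlgAn_exists_order (hol N ⟨jF N, jF_mem_A N⟩)
      (AlgAn_holo_ne_zero (real N) hjA0) τ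
    have : ordOf φ (jF N) = nj := by
      unfold ordOf
      rw [← hnj, ← hφ]
    rw [this]
    exact Int.natCast_nonneg nj
  have hvj : 0 ≤ v.ord (jF N) := by
    rw [hv _ hj0] at hjord
    exact (mul_nonneg_iff_of_pos_left hM).1 hjord
  have := finiteDimensional_jF N
  obtain ⟨c, hc | hc⟩ := exists_const_of_mem (jF N) htr v (jF N)
    (Fermat.Agent.S24.mem_of_ord_nonneg v hj0 hvj)
  · exact absurd hc (hnotc c)
  have hy0 : jF N - algebraMap Kbar (FN N) c ≠ 0 := sub_ne_zero.2 (hnotc c)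
  have hpos := hfin v c hc
  have h1 : 1 ≤ ordOf φ f + ordOf φ (jF N - algebraMap Kbar (FN N) c) := by
    rw [← ordOf_mul φ hf0 hy0, hv _ (mul_ne_zero hf0 hy0)]
    nlinarith
  have hypos : 0 < ordOf φ (jF N - algebraMap Kbar (FN N) c) := by
    rw [hv _ hy0]
    exact mul_pos hM hc
  set yA : A N := ⟨jF N, jF_mem_A N⟩ - algebraMap Kbar (A N) c with hyA
  have hyAc : (yA : FN N) = jF N - algebraMap Kbar (FN N) c := rfl
  have hyA0 : yA ≠ 0 := by
    intro h
    exact hy0 (by rw [← hyAc, h]; rfl)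
  obtain ⟨e, he1, he2⟩ := AlgAn_exists_order (hol N yA) (AlgAn_holo_ne_zero (real N) hyA0) τ
  have hye : ordOf φ (jF N - algebraMap Kbar (FN N) c) = e := by
    unfold ordOf
    rw [← hyAc, hφ, he2]
  have hfun : (hol N yA).1 ∘ ofComplex = fun w : ℂ => kleinJ (ofComplex w) - iota c := by
    funext w
    show PsiA N yA (ofComplex w) = _
    rw [hyA, map_sub, Pi.sub_apply, PsiA_jF, PsiA_algebraMap]
  rw [hfun] at he1
  have he0 : e ≠ 0 := by
    rw [hye] at hypos
    omega
  have hval : kleinJ τ = iota c := by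
    have h2 : analyticOrderAt (fun w : ℂ => kleinJ (ofComplex w) - iota c) (τ : ℂ) ≠ 0 := by
      rw [he1]
      exact_mod_cast he0
    have h3 := (analyticOrderAt_ne_zero.1 h2).2
    simp only [ofComplex_apply] at h3
    exact sub_eq_zero.1 h3
  have hle := order_kleinJ_sub_le τ
  rw [hval, he1, hH1] at hle
  have hle' : e ≤ nH + 1 := by exact_mod_cast hle
  rw [hye] at h1
  omega

end Fermat.Agent.MR.Lift.L4
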