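import Fermat.Agent.MR.Lift.L4.Defs
import Fermat.Prelude.Def_FLTPrelim_Modularity

/-!
# L4' leaf QEXP: the `q`-expansion of `G`

Proof.  `S := HahnSeries.ofPowerSeries ℤ ℂ (qExpansion 1 G)`.  `IsConv S` and `evalAt (𝕢 1 τ) S = G τ`
(`ModularFormClass.hasSum_qExpansion`, `hasSum_ofPowerSeries_iff` in `S24/ConvLaurent.lean`; `1 ∈ strictPeriods` of `Γ₀(N)`; other uses
in the repository: grep `hasSum_qExpansion`).
`PsiA N x τ = evalAt (𝕢 1 τ) (coeffMap iota x)` (`PsiA_apply`, `PsiK_apply`, `coe_toConvK`), `IsConv (coeffMap iota x)` is membership in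
`convK`.  `Hfun τ = evalAt (𝕢 1 τ) (theta jqC)` (`S36R.KS.evalAt_theta_jqC`, `JLocal.D_kleinJ`), `S36R.KS.isConv_theta_jqC`.
By `eq_of_evalAt_eq` (+ `exists_qParam_eq`, `evalAt_mul`): `S * coeffMap iota s = coeffMap iota a * theta jqC`.
`jqC = jqModC ℂ = coeffMap iota (jqModC Kbar)` (`S36R.KS.JIdentity_jqC_eq`, `coeffMap_jqModC`), `theta_coeffMap`.  So
`S * coeffMap iota s = coeffMap iota (f * theta (jqModC Kbar)) * coeffMap iota s`; cancel (`coeffMap_iota_injective`), take coefficients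
(`coeffMap_coeff`, `HahnSeries.ofPowerSeries_apply_coeff`).
-/

set_option autoImplicit false

noncomputable section

namespace Fermat.Agent.MR.Lift.L4

open UpperHalfPlane AlgebraicCurve ModularCurve CongruenceSubgroup
open Fermat.Agent.S24 Fermat.Agent.S24.PointExp Fermat.Agent.S24.FNAdjoin Fermat.Agent.S24.EmbedFN
  Fermat.Agent.S24.JLocal
open scoped Manifold MatrixGroups

local notation "𝕢" => Function.Periodic.qParam

/-- the `q`-expansion of a cusp form of level `Γ₀(N)` converges to it. -/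
theorem qexp_hasSum (N : ℕ) (G : CuspForm (Gamma0 N) 2) (τ : ℍ) :
    HasSum (fun n : ℤ => (HahnSeries.ofPowerSeries ℤ ℂ (qExpansion 1 G)).coeff n * (𝕢 1 τ) ^ n)
      (G τ) := by
  have h1 : (1 : ℝ) ∈ ((Gamma0 N : Subgroup SL(2, ℤ)) : Subgroup (GL (Fin 2) ℝ)).strictPeriods := by
    simp
  have : Fact (IsCusp OnePoint.infty ((Gamma0 N : Subgroup SL(2, ℤ)) : Subgroup (GL (Fin 2) ℝ))) :=
    ⟨Subgroup.isCusp_of_mem_strictPeriods one_pos h1⟩
  have h2 := hasSum_qExpansion one_pos (SlashInvariantFormClass.periodic_comp_ofComplex G h1)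
    (ModularFormClass.holo G) (ModularFormClass.bdd_at_infty G) τ
  rw [← hasSum_ofPowerSeries_iff]
  simpa [smul_eq_mul] using h2

theorem qexp_isConv (N : ℕ) (G : CuspForm (Gamma0 N) 2) :
    IsConv (HahnSeries.ofPowerSeries ℤ ℂ (qExpansion 1 G)) := by
  intro q hq hq1
  obtain ⟨τ, rfl⟩ := exists_qParam_eq hq hq1
  exact (qexp_hasSum N G τ).summable

theorem qexp_evalAt (N : ℕ) (G : CuspForm (Gamma0 N) 2) (τ : ℍ) :
    evalAt (𝕢 1 τ) (HahnSeries.ofPowerSeries ℤ ℂ (qExpansion 1 G)) = G τ :=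
  (qexp_hasSum N G τ).tsum_eq

theorem qCoeff_eq (N : ℕ) [NeZero N] (f : FN N) (a s : A N) (hs : s ≠ 0)
    (hf : f * (s : FN N) = (a : FN N)) (G : CuspForm (Gamma0 N) 2)
    (hG : ∀ τ, G τ * PsiA N s τ = PsiA N a τ * Hfun τ) (n : ℕ) :
    ModularFormClass.qCoeff G n =
      iota (((f : LaurentSeries Kbar) * S36R.KS.theta (jqModC Kbar)).coeff (n : ℤ)) := by
  set S : LaurentSeries ℂ := HahnSeries.ofPowerSeries ℤ ℂ (qExpansion 1 G) with hS
  have hcs : IsConv (coeffMap iota ((s : FN N) : LaurentSeries Kbar)) := (toConvK N s).2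
  have hca : IsConv (coeffMap iota ((a : FN N) : LaurentSeries Kbar)) := (toConvK N a).2
  have key : S * coeffMap iota ((s : FN N) : LaurentSeries Kbar)
      = coeffMap iota ((a : FN N) : LaurentSeries Kbar) * S36R.KS.theta jqC := by
    refine eq_of_evalAt_eq ((qexp_isConv N G).mul hcs) (hca.mul S36R.KS.isConv_theta_jqC) ?_
    intro q hq hq1
    obtain ⟨τ, rfl⟩ := exists_qParam_eq hq hq1
    rw [evalAt_mul (qexp_isConv N G) hcs hq hq1, evalAt_mul hca S36R.KS.isConv_theta_jqC hq hq1,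
      qexp_evalAt, S36R.KS.evalAt_theta_jqC, JLocal.D_kleinJ]
    exact hG τ
  have hj : S36R.KS.theta jqC = coeffMap iota (S36R.KS.theta (jqModC Kbar)) := by
    rw [S36R.KS.JIdentity_jqC_eq, ← S36R.KS.theta_coeffMap, coeffMap_jqModC]
  have hfa : ((a : FN N) : LaurentSeries Kbar)
      = (f : LaurentSeries Kbar) * ((s : FN N) : LaurentSeries Kbar) := by
    rw [← hf]; rfl
  have hs0 : coeffMap iota ((s : FN N) : LaurentSeries Kbar) ≠ 0 := by
    intro h0
    apply hs
    have h1 : ((s : FN N) : LaurentSeries Kbar) = 0 :=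
      coeffMap_iota_injective (by rw [h0, map_zero])
    exact Subtype.ext (Subtype.ext h1)
  have hfin : S = coeffMap iota ((f : LaurentSeries Kbar) * S36R.KS.theta (jqModC Kbar)) := by
    apply mul_right_cancel₀ hs0
    rw [key, hj, hfa, map_mul, map_mul]
    ring
  have := congrArg (fun z => z.coeff (n : ℤ)) hfin
  simp only [coeffMap_coeff] at this
  rw [← this, hS, HahnSeries.ofPowerSeries_apply_coeff]
  rfl

end Fermat.Agent.MR.Lift.L4
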