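import Fermat.Agent.MR.Lift.L4.Div
import Fermat.Agent.MR.Lift.L4.Point
import Fermat.Agent.MR.Lift.L4.Cusp
import Fermat.Agent.MR.Lift.L4.QExp

/-!
# MR / LIFT / L4' : `f ∈ L(W)` gives the cusp form `G = f · θ j` of weight two and level `Γ₀(N)`
-/

set_option autoImplicit false

noncomputable section

namespace Fermat.Agent.MR.Lift.L4

open UpperHalfPlane AlgebraicCurve ModularCurve CongruenceSubgroup Filter Topology ModularForm
  EisensteinSeries
open Fermat.Agent.S24 Fermat.Agent.S24.PointExp Fermat.Agent.S24.FNAdjoin Fermat.Agent.S24.EmbedFN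
  Fermat.Agent.S24.JLocal
open scoped Manifold MatrixGroups

local notation "Δ" => ModularForm.discriminant

/-- `D j` has weight two. -/
theorem Hfun_smul (γ : SL(2, ℤ)) (τ : ℍ) : Hfun (γ • τ) = denom γ τ ^ 2 * Hfun τ := by
  have hγ : (γ : GL (Fin 2) ℝ) ∈ 𝒮ℒ := ⟨γ, rfl⟩
  have h4 : (⇑E₄ ∣[(4 : ℤ)] γ) τ = E₄ τ := by
    rw [SL_slash, SlashInvariantFormClass.slash_action_eq E₄ _ hγ]
  have h6 : (⇑E₆ ∣[(6 : ℤ)] γ) τ = E₆ τ := by
    rw [SL_slash, SlashInvariantFormClass.slash_action_eq E₆ _ hγ]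
  have h12 : (Δ ∣[(12 : ℤ)] γ) τ = Δ τ := by
    have := SlashInvariantFormClass.slash_action_eq CuspForm.discriminant _ hγ
    rw [SL_slash]
    exact congrFun this τ
  have hd : denom γ τ ≠ 0 := denom_ne_zero γ τ
  rw [SL_slash_apply] at h4 h6 h12
  have hΔ := discriminant_ne_zero τ
  rw [Hfun, Hfun, ← h4, ← h6, ← h12]
  have hΔ' := discriminant_ne_zero (γ • τ)
  generalize denom γ τ = d at *
  generalize E₄ (γ • τ) = x4 at *
  generalize E₆ (γ • τ) = x6 at *
  generalize Δ (γ • τ) = x12 at *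
  rw [zpow_neg, zpow_neg, zpow_neg, zpow_ofNat, zpow_ofNat, zpow_ofNat]
  field_simp

/-- the functional equation of the slashed function. -/
theorem slash_mul_eq (N : ℕ) (a s : A N) (G : ℍ → ℂ)
    (hG : ∀ τ, G τ * PsiA N s τ = PsiA N a τ * Hfun τ) (γ : SL(2, ℤ)) (τ : ℍ) :
    (G ∣[(2 : ℤ)] γ) τ * PsiA N s (γ • τ) = PsiA N a (γ • τ) * Hfun τ := by
  have hd : denom γ τ ≠ 0 := denom_ne_zero γ τ
  have h := hG (γ • τ)
  rw [Hfun_smul] at h
  rw [SL_slash_apply, zpow_neg, zpow_ofNat]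
  generalize denom γ τ = d at *
  field_simp
  linear_combination h

theorem hol_ne_zero (N : ℕ) {s : A N} (hs : s ≠ 0) : hol N s ≠ 0 := by
  intro h
  apply hs
  apply PsiA_injective N
  rw [map_zero]
  exact congrArg Subtype.val h

/-- **L4'**.  If `f ∈ L(W)`, `W = ∑ (e_P - 1) P - 2 (j)_∞`, then `f · θ j` is the `q`-expansion of a cusp form of weight two. -/
theorem exists_cuspForm (N : ℕ) [NeZero N] (f : FN N) (hf : InLW N f) :
    ∃ G : CuspForm (Gamma0 N) 2, ∀ n : ℕ, ModularFormClass.qCoeff G n =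
      iota (((f : LaurentSeries Kbar) * S36R.KS.theta (jqModC Kbar)).coeff (n : ℤ)) := by
  obtain ⟨a₀, ha₀, s₀, hs₀, hs0, hfe⟩ := exists_div N f
  let a : A N := ⟨a₀, ha₀⟩
  let s : A N := ⟨s₀, hs₀⟩
  have hs : s ≠ 0 := fun h => hs0 (congrArg Subtype.val h)
  have hfs : f * (s : FN N) = (a : FN N) := by
    show f * s₀ = a₀
    rw [hfe, div_mul_cancel₀ _ hs0]
  obtain ⟨G, hG⟩ := exists_holo_mul_eq (hol N a * Hj) (hol N s) (hol_ne_zero N hs)
    (order_le_point N f a s hs hfs hf.fin)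
  have hG' : ∀ τ, G.1 τ * PsiA N s τ = PsiA N a τ * Hfun τ := fun τ =>
    congrFun (congrArg Subtype.val hG) τ
  have hinv : ∀ γ ∈ Gamma0 N, G.1 ∣[(2 : ℤ)] γ = G.1 := by
    intro γ hγ
    let Gγ : holo := ⟨G.1 ∣[(2 : ℤ)] γ, MDifferentiable.slash G.2 2 _⟩
    have h1 : Gγ * hol N s = G * hol N s := by
      apply Subtype.ext
      funext τ
      show (G.1 ∣[(2 : ℤ)] γ) τ * PsiA N s τ = G.1 τ * PsiA N s τ
      have h2 := slash_mul_eq N a s G.1 hG' γ τ
      have e1 : PsiA N s (γ • τ) = PsiA N s τ := (real N).inv γ hγ s τ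
      have e2 : PsiA N a (γ • τ) = PsiA N a τ := (real N).inv γ hγ a τ
      rw [e1, e2] at h2
      rw [hG' τ]
      exact h2
    have : IsDomain holo :=
      Function.Injective.isDomain (expand UpperHalfPlane.I) (expand_injective UpperHalfPlane.I)
    exact congrArg Subtype.val (mul_right_cancel₀ (hol_ne_zero N hs) h1)
  let GG : CuspForm (Gamma0 N) 2 :=
    { toFun := G.1
      slash_action_eq' := by
        rintro _ ⟨γ, hγ, rfl⟩
        exact hinv γ hγ
      holo' := G.2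
      zero_at_cusps' := by
        intro c hc
        rw [Subgroup.IsArithmetic.isCusp_iff_isCusp_SL2Z] at hc
        rw [OnePoint.isZeroAt_iff_forall_SL2Z hc]
        intro γ _
        exact tendsto_zero_cusp N f a s hs hfs hf.inf γ _ (slash_mul_eq N a s G.1 hG' γ) }
  exact ⟨GG, qCoeff_eq N f a s hs hfs GG hG'⟩

end Fermat.Agent.MR.Lift.L4
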