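import Fermat.Agent.MR.Lift.HolDiff
import Fermat.Agent.MR.Lift.L4.Main

/-!
# MR / LIFT / L4' : `l4Statement : L4Statement`
-/

set_option autoImplicit false

noncomputable section

namespace Fermat.Agent.MR.Lift

open AlgebraicCurve ModularCurve CongruenceSubgroup
open Fermat.Agent.S24

theorem L4.coe_jF (N : ℕ) : ((jF N : FN N) : LaurentSeries Kbar) = jqModC Kbar := by
  show coeffEmb Kbar jq = jqModC Kbar
  rw [← jqModC_rat, coeffEmb, coeffMap_jqModC]

theorem L4.inLW_of_mem (N : ℕ) [NeZero N] (f : FN N) (hf0 : f ≠ 0) (hf : f ∈ LW Kbar (jF N)) :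
    L4.InLW N f := by
  have h := hf.resolve_left hf0
  have hj := transcendental_jF N
  constructor
  · intro P c hc
    have hne : jF N - algebraMap Kbar (FN N) c ≠ 0 := by
      intro h0
      rw [h0] at hc
      simp at hc
    rw [Place.ord_mul _ hf0 hne]
    have := (h P).1 c hc
    omega
  · intro P hP
    have hne : jF N ≠ 0 := by
      intro h0
      rw [h0] at hP
      simp at hP
    rw [Place.ord_mul _ hf0 hne]
    have := (h P).2 hP
    omega

/-- **(LIFT-MF, L4')** -/
theorem l4Statement : L4Statement := by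
  intro N _ f hf
  rw [L4.coe_jF]
  by_cases hf0 : f = 0
  · refine ⟨0, fun n => ?_⟩
    have hcoe : (⇑(0 : CuspForm (Gamma0 N) 2) : UpperHalfPlane → ℂ) = 0 := rfl
    rw [ModularFormClass.qCoeff, hcoe, UpperHalfPlane.qExpansion_zero, hf0]
    simp
  · exact L4.exists_cuspForm N f (L4.inLW_of_mem N f hf0 hf)

end Fermat.Agent.MR.Lift
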