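import Fermat.Agent.MR.Lift.L4.Defs

/-!
# L4' leaf C1: the shape of an element of `Rcusp N` near the cusp

Proof.  `mem_Rcusp.mp x.2` gives `m g` with `H : HasExp N x.1 m g` (`x τ * w^m = g w`, `g` differentiable on the unit ball, so
`AnalyticAt ℂ g 0` by `analyticAt_of_diff`), and `Ecusp_eq H : Ecusp N x = ser m g`.  `g` is not locally zero (else `taylor0 g = 0`,
`ser_eq_zero_iff`, so `Ecusp N x = 0`, contradiction with `Ecusp_injective`), so `analyticOrderAt g 0 = n` finite and
`(AnalyticAt.analyticOrderAt_eq_natCast _).mp` gives `h` analytic at `0`, `h 0 ≠ 0`, `g w = w^n • h w` near `0`.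
Then `taylor0 g = X^n * taylor0 h` (`taylor0_congr`, `taylor0_mul`, `taylor0_pow`, `taylor0_id`), `taylor0 h` has constant coefficient
`h 0 ≠ 0` (`PointExp.constantCoeff_taylor0`), so `(ser m g).order = n - m` (model: `PointExp.order_expand`, `EmbedPoint.order_eq_of_coeff`,
`coeff_ser`, `coeff_ser_of_lt`).  Finally `wpar N τ → 0` at `i∞` (`qParam_tendsto_atImInfty (N_pos N)`), so eventually
`x τ = g w / w^m = w^(n-m) h w`.
-/

set_option autoImplicit false

noncomputable section

namespace Fermat.Agent.MR.Lift.L4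

open UpperHalfPlane Filter Topology
open Fermat.Agent.S24 Fermat.Agent.S24.PointExp Fermat.Agent.S24.CuspRing
open scoped Manifold MatrixGroups

/-- (C1) the shape of an element of `Rcusp N` near the cusp. -/
theorem exists_eq_zpow_mul (N : ℕ) [NeZero N] (x : Rcusp N) (hx : x ≠ 0) :
    ∃ h : ℂ → ℂ, ContinuousAt h 0 ∧ h 0 ≠ 0 ∧
      ∀ᶠ τ in atImInfty, x.1 τ = wpar N τ ^ (Ecusp N x).order * h (wpar N τ) := by
  obtain ⟨m, g, H⟩ := mem_Rcusp.mp x.2
  have hg : AnalyticAt ℂ g 0 := analyticAt_of_diff H.diff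
  have hE : Ecusp N x = ser m g := Ecusp_eq H
  have hE0 : Ecusp N x ≠ 0 := by
    intro h0
    exact hx (Ecusp_injective (by rw [h0, map_zero]))
  have hnt : analyticOrderAt g 0 ≠ ⊤ := by
    intro htop
    rw [analyticOrderAt_eq_top] at htop
    apply hE0
    rw [hE, ser_eq_zero_iff]
    have h1 : g =ᶠ[𝓝 0] (fun _ => (0 : ℂ)) := htop
    rw [taylor0_congr h1, taylor0_const, map_zero]
  obtain ⟨n, hn⟩ := ENat.ne_top_iff_exists.mp hnt
  obtain ⟨h, hh, hh0, hev⟩ := (hg.analyticOrderAt_eq_natCast).mp hn.symm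
  have hid : AnalyticAt ℂ (fun q : ℂ => q) 0 := analyticAt_id
  have hcongr : g =ᶠ[𝓝 0] ((fun w => w) ^ n * h : ℂ → ℂ) := by
    filter_upwards [hev] with w hw
    simp only [Pi.mul_apply, Pi.pow_apply]
    rw [hw, sub_zero, smul_eq_mul]
  have htay : taylor0 g = PowerSeries.X ^ n * taylor0 h := by
    rw [taylor0_congr hcongr, taylor0_mul (hid.pow n) hh, taylor0_pow hid, taylor0_id]
  have hord : (Ecusp N x).order = (n : ℤ) - m := by
    rw [hE]
    apply CuspRing.order_eq_of_coeff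
    · rw [coeff_ser, htay, PowerSeries.coeff_X_pow_mul', if_pos le_rfl, Nat.sub_self,
        PowerSeries.coeff_zero_eq_constantCoeff_apply, constantCoeff_taylor0]
      exact hh0
    · intro k hk
      by_cases hkm : k < -(m : ℤ)
      · exact coeff_ser_of_lt m g hkm
      · obtain ⟨j, hj⟩ : ∃ j : ℕ, k = (j : ℤ) - m := ⟨(k + m).toNat, by omega⟩
        rw [hj, coeff_ser, htay, PowerSeries.coeff_X_pow_mul', if_neg (by omega)]
  refine ⟨h, hh.continuousAt, hh0, ?_⟩
  have ht : Tendsto (fun τ : ℍ => wpar N τ) atImInfty (𝓝 0) :=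
    qParam_tendsto_atImInfty (N_pos N)
  filter_upwards [ht.eventually hev] with τ hτ
  have hw := wpar_ne_zero N τ
  have h1 := H.eq τ
  rw [hτ, sub_zero, smul_eq_mul] at h1
  rw [hord, zpow_sub₀ hw, zpow_natCast, zpow_natCast]
  field_simp
  exact h1

end Fermat.Agent.MR.Lift.L4
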