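import Fermat.Agent.S24
import Fermat.Agent.S24.EmbedCuspFN
import Fermat.Agent.GAL.Tors.Dict.AlgAn
import Fermat.Agent.S36R.KS.JIdentity

/-!
# MR / LIFT / L4' : from `f ∈ L(W)` to a cusp form `G = f · θ j` of weight two.  Definitions.

`N` a level, `f ∈ FN N = ℚ̄(X₀(N))`, written `f = a / s` with `a, s ∈ A N = ℚ̄[j(q^d) : d ∣ N]`.
`Al = PsiA N a`, `Sg = PsiA N s` the holomorphic functions on `ℍ` attached to `a`, `s`;
`Hj = D j = - E₄² E₆ / Δ`.  The cusp form is the holomorphic function `G` with `G * Sg = Al * Hj`.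
-/

set_option autoImplicit false

noncomputable section

namespace Fermat.Agent.MR.Lift.L4

open UpperHalfPlane AlgebraicCurve ModularCurve ModularForm EisensteinSeries CongruenceSubgroup
open Fermat.Agent.S24 Fermat.Agent.S24.PointExp Fermat.Agent.S24.FNAdjoin Fermat.Agent.S24.EmbedFN
  Fermat.Agent.S24.JLocal
open scoped Manifold MatrixGroups

local notation "Δ" => ModularForm.discriminant

/-- `D j = - E₄² E₆ / Δ`. -/
def Hfun (τ : ℍ) : ℂ := - (E₄ τ ^ 2 * E₆ τ) / Δ τ

theorem mdiff_Hfun : MDiff Hfun :=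
  ((((ModularFormClass.holo E₄).pow 2).mul (ModularFormClass.holo E₆)).neg).div
    mdifferentiable_Δ discriminant_ne_zero

/-- `D j` as an element of `holo`. -/
def Hj : holo := ⟨Hfun, mdiff_Hfun⟩

/-- the realisation of `A N`. -/
abbrev real (N : ℕ) [NeZero N] : EmbedPoint.Realisation Kbar (A N) (Gamma0 N) :=
  realisation N (stabiliser_Gamma0 N)

/-- the holomorphic function attached to an element of `A N`. -/
def hol (N : ℕ) (a : A N) : holo := ⟨PsiA N a, mdifferentiable_PsiK _⟩

/-- The condition `f ∈ L(W)`, `W = ∑ (e_P - 1) P - 2 (j)_∞` (`e_P` the ramification index over the `j`-line). -/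
structure InLW (N : ℕ) (f : FN N) : Prop where
  fin : ∀ (P : Place Kbar (FN N)) (c : Kbar), 0 < P.ord (jF N - algebraMap Kbar (FN N) c) →
    0 < P.ord (f * (jF N - algebraMap Kbar (FN N) c))
  inf : ∀ P : Place Kbar (FN N), P.ord (jF N) < 0 → 0 < P.ord (f * jF N)

end Fermat.Agent.MR.Lift.L4
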