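import Fermat.Agent.MR.Lift.L4.Defs

/-!
# L4' leaf DIV (pure complex analysis): division of holomorphic functions on `ℍ`

`holo` = `S24.PointExp.holo` : the subring of `ℍ → ℂ` of the `MDiff` functions.  For `G : holo`,
`PointExp.analyticAt_comp_ofComplex G.2 τ : AnalyticAt ℂ (G.1 ∘ ofComplex) τ`; `Dict.AlgAn_order_ne_top v hv τ` : the order of
`v ≠ 0` is finite at every point; `UpperHalfPlane.mdifferentiable_iff`.

Proof A (local).  For `τ₀`, `n := ord v`, `v∘ofComplex = (z - τ₀)^n • v₁`, `v₁ τ₀ ≠ 0`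
(`AnalyticAt.analyticOrderAt_eq_natCast`), `u∘ofComplex = (z - τ₀)^n • u₁` with `u₁` analytic (`natCast_le_analyticOrderAt`).  So
`g_τ₀ := u₁ / v₁` is analytic at `τ₀` and `g_τ₀ * v = u` near `τ₀`.  Put `G τ₀ := g_τ₀ τ₀` (choice).  Near `τ₀`, for `z ≠ τ₀`, `v z ≠ 0`
so `G z = u z / v z = g_τ₀ z`; so `G = g_τ₀` near `τ₀`: `G` is analytic.
Proof B (Mathlib).  `G := toMeromorphicNFOn (u∘ofComplex / v∘ofComplex) {z | 0 < z.im}`, `meromorphicOrderAt_toMeromorphicNFOn`,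
`MeromorphicNFAt.meromorphicOrderAt_nonneg_iff_analyticAt`, `toMeromorphicNFOn_eq_self_on_nhdsNE`, and
`AnalyticAt.frequently_eq_iff_eventually_eq` for `G * v = u`.
-/

set_option autoImplicit false

noncomputable section

namespace Fermat.Agent.MR.Lift.L4

open UpperHalfPlane
open Fermat.Agent.S24 Fermat.Agent.S24.PointExp
open scoped Manifold MatrixGroups

/-- If `ord_τ v ≤ ord_τ u` at every point of `ℍ`, then `u / v` is holomorphic. -/
theorem exists_holo_mul_eq (u v : holo) (hv : v ≠ 0)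
    (h : ∀ τ : ℍ, analyticOrderAt (v.1 ∘ ofComplex) (τ : ℂ) ≤
      analyticOrderAt (u.1 ∘ ofComplex) (τ : ℂ)) :
    ∃ G : holo, G * v = u := by
  classical
  set U : ℂ → ℂ := u.1 ∘ ofComplex with hU
  set V : ℂ → ℂ := v.1 ∘ ofComplex with hV
  have hUa : ∀ τ : ℍ, AnalyticAt ℂ U τ := fun τ => PointExp.analyticAt_comp_ofComplex u.2 τ
  have hVa : ∀ τ : ℍ, AnalyticAt ℂ V τ := fun τ => PointExp.analyticAt_comp_ofComplex v.2 τ
  have hVtop : ∀ τ : ℍ, analyticOrderAt V (τ : ℂ) ≠ ⊤ := fun τ =>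
    Fermat.Agent.GAL.Tors.Dict.AlgAn_order_ne_top v hv τ
  have hloc : ∀ τ : ℍ, ∃ g : ℂ → ℂ, AnalyticAt ℂ g τ ∧
      (∀ᶠ z in nhds (τ : ℂ), g z * V z = U z) := by
    intro τ
    obtain ⟨n, hn⟩ := ENat.ne_top_iff_exists.1 (hVtop τ)
    obtain ⟨v₁, hv₁, hv₁0, hv₁e⟩ := ((hVa τ).analyticOrderAt_eq_natCast).1 hn.symm
    have hle : (n : ℕ∞) ≤ analyticOrderAt U τ := by rw [hn]; exact h τ
    obtain ⟨u₁, hu₁, hu₁e⟩ := (natCast_le_analyticOrderAt (hUa τ)).1 hle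
    refine ⟨fun z => u₁ z / v₁ z, hu₁.div hv₁ hv₁0, ?_⟩
    filter_upwards [hv₁e, hu₁e, hv₁.continuousAt.eventually_ne hv₁0] with z h1 h2 h3
    rw [h1, h2, smul_eq_mul, smul_eq_mul]
    field_simp
  choose g hga hge using hloc
  let G : ℍ → ℂ := fun τ => g τ τ
  have hGV : ∀ τ : ℍ, G τ * V τ = U τ := fun τ => (hge τ).self_of_nhds
  have hev : ∀ τ₀ : ℍ, (G ∘ ofComplex) =ᶠ[nhds (τ₀ : ℂ)] g τ₀ := by
    intro τ₀
    have hVne : ∀ᶠ z in nhdsWithin (τ₀ : ℂ) {(τ₀ : ℂ)}ᶜ, V z ≠ 0 := by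
      rcases (hVa τ₀).eventually_eq_zero_or_eventually_ne_zero with h0 | h0
      · exact absurd (analyticOrderAt_eq_top.2 h0) (hVtop τ₀)
      · exact h0
    rw [eventually_nhdsWithin_iff] at hVne
    filter_upwards [hVne, hge τ₀, isOpen_upperHalfPlaneSet.mem_nhds τ₀.im_pos] with z h1 h2 h3
    by_cases hz : z = τ₀
    · rw [hz]
      show G (ofComplex (τ₀ : ℂ)) = g τ₀ τ₀
      rw [ofComplex_apply]
    · have hVz := h1 hz
      have h4 : G ⟨z, h3⟩ * V z = U z := hGV ⟨z, h3⟩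
      show G (ofComplex z) = g τ₀ z
      rw [ofComplex_apply_of_im_pos h3]
      exact mul_right_cancel₀ hVz (h4.trans h2.symm)
  have hG : MDiff G := by
    rw [UpperHalfPlane.mdifferentiable_iff]
    intro z hz
    have := ((hga ⟨z, hz⟩).congr (hev ⟨z, hz⟩).symm)
    exact this.differentiableAt.differentiableWithinAt
  refine ⟨⟨G, hG⟩, ?_⟩
  apply Subtype.ext
  funext τ
  have h1 := hGV τ
  simp only [hU, hV, Function.comp_apply, ofComplex_apply] at h1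
  exact h1

end Fermat.Agent.MR.Lift.L4
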