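import Fermat.Agent.MR.Lift.L4.Defs

/-!
# L4' leaf ORDH: `ord_τ (D j) ≥ ord_τ (j - j(τ)) - 1`

Proof.  Three cases (all in `S24/JLocal.lean`).
* `E₄ τ = 0`: `kleinJ τ = 0`, LHS `= 3` (`analyticOrderAt_kleinJ_of_E₄_eq_zero`); `Hj ∘ ofComplex = (E₄∘ofComplex)^2 * (analytic)`, and
  `analyticOrderAt_E₄` gives order `≥ 2` (`analyticOrderAt_mul`, `analyticOrderAt_pow`, `analyticAt_inv_Δ`).
* `E₆ τ = 0`: `kleinJ τ = 1728`, LHS `= 2` (`analyticOrderAt_kleinJ_sub_of_E₆_eq_zero`), `Hj` has order `≥ 1`.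
* otherwise LHS `= 1` (`analyticOrderAt_kleinJ_sub`, `kleinJ_eq_zero_iff`, `kleinJ_eq_1728_iff`).
-/

set_option autoImplicit false

noncomputable section

namespace Fermat.Agent.MR.Lift.L4

open UpperHalfPlane ModularForm EisensteinSeries
open Fermat.Agent.S24 Fermat.Agent.S24.PointExp Fermat.Agent.S24.JLocal
open scoped Manifold MatrixGroups

/-- `ord_τ (j - j(τ)) ≤ ord_τ (D j) + 1`. -/
theorem order_kleinJ_sub_le (τ : ℍ) :
    analyticOrderAt (fun w : ℂ => kleinJ (ofComplex w) - kleinJ τ) (τ : ℂ) ≤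
      analyticOrderAt (Hj.1 ∘ ofComplex) (τ : ℂ) + 1 := by
  have h4 := JLocal.analyticAt_comp_ofComplex (ModularFormClass.holo E₄) τ
  have h6 := JLocal.analyticAt_comp_ofComplex (ModularFormClass.holo E₆) τ
  have hnegΔ : AnalyticAt ℂ (fun w : ℂ => -(ModularForm.discriminant (ofComplex w))⁻¹) (τ : ℂ) :=
    (analyticAt_inv_Δ τ).neg
  have heq : (Hj.1 ∘ ofComplex) =
      (⇑E₄ ∘ ofComplex) ^ 2 *
        ((⇑E₆ ∘ ofComplex) * (fun w : ℂ => -(ModularForm.discriminant (ofComplex w))⁻¹)) := by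
    funext w
    simp only [Hj, Hfun, Function.comp_apply, Pi.mul_apply, Pi.pow_apply, div_eq_mul_inv]
    ring
  have hord : analyticOrderAt (Hj.1 ∘ ofComplex) (τ : ℂ) =
      2 • analyticOrderAt (⇑E₄ ∘ ofComplex) (τ : ℂ) +
        (analyticOrderAt (⇑E₆ ∘ ofComplex) (τ : ℂ) +
          analyticOrderAt (fun w : ℂ => -(ModularForm.discriminant (ofComplex w))⁻¹) (τ : ℂ)) := by
    rw [heq, analyticOrderAt_mul (h4.pow 2) (h6.mul hnegΔ), analyticOrderAt_pow h4,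
      analyticOrderAt_mul h6 hnegΔ]
  by_cases hE4 : E₄ τ = 0
  · have hk : kleinJ τ = 0 := kleinJ_eq_zero_iff.2 hE4
    simp only [hk, sub_zero]
    rw [analyticOrderAt_kleinJ_of_E₄_eq_zero hE4, hord, analyticOrderAt_E₄ hE4]
    have h3 : (3 : ℕ∞) = 2 • (1 : ℕ∞) + 1 := by norm_num
    rw [h3]
    gcongr
    exact le_self_add
  · by_cases hE6 : E₆ τ = 0
    · have hk : kleinJ τ = 1728 := kleinJ_eq_1728_iff.2 hE6
      simp only [hk]
      rw [analyticOrderAt_kleinJ_sub_of_E₆_eq_zero hE6, hord, analyticOrderAt_E₆ hE6]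
      have h2 : (2 : ℕ∞) = 1 + 1 := by norm_num
      rw [h2]
      gcongr
      exact le_add_left le_self_add
    · rw [analyticOrderAt_kleinJ_sub (fun h => hE4 (kleinJ_eq_zero_iff.1 h))
        (fun h => hE6 (kleinJ_eq_1728_iff.1 h))]
      exact le_add_self

end Fermat.Agent.MR.Lift.L4
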